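import Mathlib
import Fermat.Agent.T1.RedIface75

/-!
# T1A (S19), REDUCTION layer, brick R-a: Čech lines  (helper11)

`cechLine u` (defined in `RedIface75`) is the line two-chart module which is trivial on both
charts and glued by the unit `u` of the overlap ring.  This file proves:

* `cechTensorIso` / `cechClass_mul` / `cechClass_one` : `u ↦ cechClass c u` is multiplicative;
  `cechClassHom c : R01ˣ →* LinePic c`;
* `cechClass_eq_one_iff` : `cechClass c u = 1` iff `u = a0 * a1` with `a_j` units of `R_j`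
  (no hypothesis on `H⁰`), and `cechClass_eq_cechClass_iff`;
* `liftDataCech` / `bc_cechClass` : base change along a cube of rings maps `cechClass u` to
  `cechClass (image of u)`; specialisations `PicX.map_cechClass`, `PicX.mapSemi_cechClass`;
* `exists_cech_of_free` : a line module whose two chart modules are free of rank one is
  isomorphic to a Čech line.
-/

set_option autoImplicit false
set_option linter.unusedSectionVars false
set_option linter.style.haveILetI false

open TensorProduct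

namespace Fermat.Agent.T1.Red11

open Fermat.Agent.Jac Fermat.Agent.Jac.JSmooth85Alg Fermat.Agent.Jac.JGroup85Pic
open Fermat.Agent.Jac.LineOps39 Fermat.Agent.Jac.BaseChange75
open Fermat.Agent.T1.RedIface75
open scoped Fermat.Agent.Jac.BaseChange75

universe u

section Cech

variable {A R0 R1 R01 : Type u} [CommRing A] [CommRing R0] [CommRing R1] [CommRing R01]
  [Algebra A R0] [Algebra A R1] [Algebra A R01] [Algebra R0 R01] [Algebra R1 R01]
  [IsScalarTower A R0 R01] [IsScalarTower A R1 R01]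

theorem cechLine_r0_apply (u : R01ˣ) (x : R0) :
    (cechLine (A := A) (R0 := R0) (R1 := R1) u).r0 x = algebraMap R0 R01 x := rfl

theorem cechLine_r1_apply (u : R01ˣ) (x : R1) :
    (cechLine (A := A) (R0 := R0) (R1 := R1) u).r1 x = (u : R01) * algebraMap R1 R01 x := rfl

/-- Generic computation behind `cechTensorIso`. -/
theorem lid_tmap_of_mul {R S : Type u} [CommRing R] [CommRing S] [Algebra R S] (a b : S)
    (f g : R →ₗ[R] S) (hf : ∀ x, f x = a * algebraMap R S x)
    (hg : ∀ x, g x = b * algebraMap R S x) (z : R ⊗[R] R) :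
    TensorProduct.lid S S (tmap (S := S) f g z) =
      (a * b) * algebraMap R S (TensorProduct.lid R R z) := by
  induction z using TensorProduct.induction_on with
  | zero => simp
  | add x y hx hy => rw [map_add, map_add, map_add, map_add, hx, hy, mul_add]
  | tmul x y =>
    rw [tmap_tmul, TensorProduct.lid_tmul, TensorProduct.lid_tmul, smul_eq_mul, smul_eq_mul,
      map_mul, hf, hg]
    ring

/-- `cechLine u ⊗ cechLine v ≅ cechLine (u * v)`. -/
noncomputable def cechTensorIso (u v : R01ˣ) :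
    QC2.Iso (tensor (cechLine (A := A) (R0 := R0) (R1 := R1) u) (cechLine v))
      (cechLine (u * v)) where
  e0 := TensorProduct.lid R0 R0
  e1 := TensorProduct.lid R1 R1
  e01 := TensorProduct.lid R01 R01
  comm0 := fun z =>
    (lid_tmap_of_mul (R := R0) (S := R01) 1 1 (Algebra.linearMap R0 R01) (Algebra.linearMap R0 R01)
      (fun x => (one_mul _).symm) (fun x => (one_mul _).symm) z).trans
      (by rw [one_mul, one_mul]; rfl)
  comm1 := fun z =>
    lid_tmap_of_mul (R := R1) (S := R01) (u : R01) (v : R01)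
      (cechLine (A := A) (R0 := R0) (R1 := R1) u).r1 (cechLine (A := A) (R0 := R0) (R1 := R1) v).r1
      (fun _ => rfl) (fun _ => rfl) z

/-- `cechLine 1 ≅ O`. -/
noncomputable def cechOneIso :
    QC2.Iso (cechLine (A := A) (R0 := R0) (R1 := R1) (1 : R01ˣ)) QC2.unit where
  e0 := LinearEquiv.refl R0 R0
  e1 := LinearEquiv.refl R1 R1
  e01 := LinearEquiv.refl R01 R01
  comm0 := fun _ => rfl
  comm1 := fun x => by
    show ((1 : R01ˣ) : R01) * algebraMap R1 R01 x = algebraMap R1 R01 x
    rw [Units.val_one, one_mul]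

variable (c : TwoChart A R0 R1 R01)

theorem cechClass_mul (u v : R01ˣ) :
    cechClass c (u * v) = cechClass c u * cechClass c v := by
  unfold cechClass
  rw [LinePic.mk_mul_mk]
  exact (LinePic.mk_eq_mk _ _ (cechTensorIso u v)).symm

theorem cechClass_one : cechClass c (1 : R01ˣ) = 1 := by
  unfold cechClass
  rw [LinePic.one_def]
  exact LinePic.mk_eq_mk _ _ cechOneIso

/-- `u ↦ cechClass c u` as a group homomorphism `R01ˣ →* Pic`. -/
noncomputable def cechClassHom : R01ˣ →* LinePic c where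
  toFun := cechClass c
  map_one' := cechClass_one c
  map_mul' := cechClass_mul c

@[simp] theorem cechClassHom_apply (u : R01ˣ) : cechClassHom c u = cechClass c u := rfl

theorem cechClass_inv (u : R01ˣ) : cechClass c u⁻¹ = (cechClass c u)⁻¹ :=
  map_inv (cechClassHom c) u

/-! ### The kernel of `cechClass` -/

theorem unitMulEquiv_apply (u : R01ˣ) (x : R01) : unitMulEquiv u x = (u : R01) * x := rfl

/-- A linear automorphism of a ring as a module over itself is multiplication by `e 1`. -/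
theorem linearEquiv_self_apply {R : Type u} [CommRing R] (e : R ≃ₗ[R] R) (x : R) :
    e x = x * e 1 := by
  have h := e.map_smul x 1
  rwa [smul_eq_mul, mul_one, smul_eq_mul] at h

/-- The unit `e 1` attached to a linear automorphism of a ring over itself. -/
noncomputable def unitOfLinearEquiv {R : Type u} [CommRing R] (e : R ≃ₗ[R] R) : Rˣ where
  val := e 1
  inv := e.symm 1
  val_inv := by
    have h := linearEquiv_self_apply e (e.symm 1)
    rw [e.apply_symm_apply] at h
    rw [mul_comm]; exact h.symm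
  inv_val := by
    have h := linearEquiv_self_apply e (e.symm 1)
    rw [e.apply_symm_apply] at h
    exact h.symm

@[simp] theorem unitOfLinearEquiv_val {R : Type u} [CommRing R] (e : R ≃ₗ[R] R) :
    ((unitOfLinearEquiv e : Rˣ) : R) = e 1 := rfl

/-- The Čech line of a coboundary `a0 * a1` is trivial. -/
noncomputable def cechBdryIso (a0 : R0ˣ) (a1 : R1ˣ) (u : R01ˣ)
    (hu : (u : R01) = algebraMap R0 R01 a0 * algebraMap R1 R01 a1) :
    QC2.Iso (cechLine (A := A) (R0 := R0) (R1 := R1) u) QC2.unit where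
  e0 := unitMulEquiv a0⁻¹
  e1 := unitMulEquiv a1
  e01 := unitMulEquiv (Units.map (algebraMap R0 R01 : R0 →* R01) a0⁻¹)
  comm0 := fun (x : R0) => by
    show (algebraMap R0 R01 ((a0⁻¹ : R0ˣ) : R0)) * algebraMap R0 R01 x =
      algebraMap R0 R01 (((a0⁻¹ : R0ˣ) : R0) * x)
    rw [map_mul]
  comm1 := fun (x : R1) => by
    show (algebraMap R0 R01 ((a0⁻¹ : R0ˣ) : R0)) * ((u : R01) * algebraMap R1 R01 x) =
      algebraMap R1 R01 ((a1 : R1) * x)
    rw [hu, map_mul]
    have h : algebraMap R0 R01 ((a0⁻¹ : R0ˣ) : R0) * algebraMap R0 R01 (a0 : R0) = 1 := by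
      rw [← map_mul, Units.inv_mul, map_one]
    calc algebraMap R0 R01 ((a0⁻¹ : R0ˣ) : R0) *
          (algebraMap R0 R01 a0 * algebraMap R1 R01 a1 * algebraMap R1 R01 x)
        = (algebraMap R0 R01 ((a0⁻¹ : R0ˣ) : R0) * algebraMap R0 R01 (a0 : R0)) *
            (algebraMap R1 R01 a1 * algebraMap R1 R01 x) := by ring
      _ = algebraMap R1 R01 a1 * algebraMap R1 R01 x := by rw [h, one_mul]

/-- If the Čech line of `u` is trivial then `u` is a coboundary. -/
theorem exists_bdry_of_iso (u : R01ˣ)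
    (e : QC2.Iso (cechLine (A := A) (R0 := R0) (R1 := R1) u) QC2.unit) :
    ∃ (a0 : R0ˣ) (a1 : R1ˣ), (u : R01) = algebraMap R0 R01 a0 * algebraMap R1 R01 a1 := by
  let E0 : R0 ≃ₗ[R0] R0 := e.e0
  let E1 : R1 ≃ₗ[R1] R1 := e.e1
  let E01 : R01 ≃ₗ[R01] R01 := e.e01
  have h0 : E01 1 = algebraMap R0 R01 (E0 1) := by
    have h := e.comm0 (1 : R0)
    have h' : E01 (algebraMap R0 R01 1) = algebraMap R0 R01 (E0 1) := h
    rwa [map_one] at h'
  have h1 : E01 (u : R01) = algebraMap R1 R01 (E1 1) := by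
    have h := e.comm1 (1 : R1)
    have h' : E01 ((u : R01) * algebraMap R1 R01 1) = algebraMap R1 R01 (E1 1) := h
    rwa [map_one, mul_one] at h'
  rw [linearEquiv_self_apply E01 (u : R01), h0] at h1
  refine ⟨(unitOfLinearEquiv E0)⁻¹, unitOfLinearEquiv E1, ?_⟩
  have h2 : algebraMap R0 R01 (((unitOfLinearEquiv E0)⁻¹ : R0ˣ) : R0) *
      algebraMap R0 R01 (E0 1) = 1 := by
    rw [← map_mul, ← unitOfLinearEquiv_val E0, Units.inv_mul, map_one]
  rw [unitOfLinearEquiv_val E1, ← h1]
  calc (u : R01) = (u : R01) * (algebraMap R0 R01 (((unitOfLinearEquiv E0)⁻¹ : R0ˣ) : R0) *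
        algebraMap R0 R01 (E0 1)) := by rw [h2, mul_one]
    _ = _ := by ring

/-- **Kernel of the Čech class**: `cechClass c u = 1` iff `u` is a product of a unit of chart 0
and a unit of chart 1 (no hypothesis on `H⁰`). -/
theorem cechClass_eq_one_iff (u : R01ˣ) :
    cechClass c u = 1 ↔
      ∃ (a0 : R0ˣ) (a1 : R1ˣ), (u : R01) = algebraMap R0 R01 a0 * algebraMap R1 R01 a1 := by
  unfold cechClass
  rw [LinePic.one_def, LinePic.mk_eq_mk_iff]
  constructor
  · rintro ⟨e⟩
    exact exists_bdry_of_iso u e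
  · rintro ⟨a0, a1, h⟩
    exact ⟨cechBdryIso a0 a1 u h⟩

/-- Unit form of `cechClass_eq_one_iff`. -/
theorem cechClass_eq_one_iff' (u : R01ˣ) :
    cechClass c u = 1 ↔
      ∃ (a0 : R0ˣ) (a1 : R1ˣ), u = Units.map (algebraMap R0 R01 : R0 →* R01) a0 *
        Units.map (algebraMap R1 R01 : R1 →* R01) a1 := by
  rw [cechClass_eq_one_iff]
  constructor
  · rintro ⟨a0, a1, h⟩
    exact ⟨a0, a1, Units.ext h⟩
  · rintro ⟨a0, a1, h⟩
    exact ⟨a0, a1, congrArg Units.val h⟩

/-- Two units have the same Čech class iff they differ by a coboundary. -/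
theorem cechClass_eq_cechClass_iff (u v : R01ˣ) :
    cechClass c u = cechClass c v ↔
      ∃ (a0 : R0ˣ) (a1 : R1ˣ), v = u * Units.map (algebraMap R0 R01 : R0 →* R01) a0 *
        Units.map (algebraMap R1 R01 : R1 →* R01) a1 := by
  have h : cechClass c u = cechClass c v ↔ cechClass c (u⁻¹ * v) = 1 := by
    rw [cechClass_mul, cechClass_inv, inv_mul_eq_one]
  rw [h, cechClass_eq_one_iff']
  constructor
  · rintro ⟨a0, a1, h⟩
    refine ⟨a0, a1, ?_⟩
    rw [mul_assoc, ← h, mul_inv_cancel_left]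
  · rintro ⟨a0, a1, h⟩
    refine ⟨a0, a1, ?_⟩
    rw [h, mul_assoc, inv_mul_cancel_left]

/-! ### Chartwise free line modules are Čech lines -/

/-- The trivialisation of `N01` induced by a trivialisation of `N0`. -/
noncomputable def triv01OfTriv0 (L : QC2 A R0 R1 R01) (e0 : R0 ≃ₗ[R0] L.N0) :
    R01 ≃ₗ[R01] L.N01 :=
  (AlgebraTensorModule.rid R0 R01 R01).symm ≪≫ₗ
    (AlgebraTensorModule.congr (LinearEquiv.refl R01 R01) e0) ≪≫ₗ L.bc0.equiv

theorem triv01OfTriv0_one (L : QC2 A R0 R1 R01) (e0 : R0 ≃ₗ[R0] L.N0) :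
    triv01OfTriv0 L e0 1 = L.r0 (e0 1) := by
  simp [triv01OfTriv0, IsBaseChange.equiv_tmul]

/-- The trivialisation of `N01` induced by a trivialisation of `N1`. -/
noncomputable def triv01OfTriv1 (L : QC2 A R0 R1 R01) (e1 : R1 ≃ₗ[R1] L.N1) :
    R01 ≃ₗ[R01] L.N01 :=
  (AlgebraTensorModule.rid R1 R01 R01).symm ≪≫ₗ
    (AlgebraTensorModule.congr (LinearEquiv.refl R01 R01) e1) ≪≫ₗ L.bc1.equiv

theorem triv01OfTriv1_one (L : QC2 A R0 R1 R01) (e1 : R1 ≃ₗ[R1] L.N1) :
    triv01OfTriv1 L e1 1 = L.r1 (e1 1) := by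
  simp [triv01OfTriv1, IsBaseChange.equiv_tmul]

/-- The transition unit of a chartwise trivialised line module. -/
noncomputable def transUnit (L : QC2 A R0 R1 R01) (e0 : R0 ≃ₗ[R0] L.N0)
    (e1 : R1 ≃ₗ[R1] L.N1) : R01ˣ :=
  unitOfLinearEquiv ((triv01OfTriv1 L e1) ≪≫ₗ (triv01OfTriv0 L e0).symm)

theorem transUnit_smul (L : QC2 A R0 R1 R01) (e0 : R0 ≃ₗ[R0] L.N0) (e1 : R1 ≃ₗ[R1] L.N1) :
    ((transUnit L e0 e1 : R01ˣ) : R01) • L.r0 (e0 1) = L.r1 (e1 1) := by
  have h : triv01OfTriv0 L e0 ((transUnit L e0 e1 : R01ˣ) : R01) = L.r1 (e1 1) := by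
    rw [transUnit, unitOfLinearEquiv_val, LinearEquiv.trans_apply, LinearEquiv.apply_symm_apply,
      triv01OfTriv1_one]
  rw [← h, ← triv01OfTriv0_one]
  have h2 := (triv01OfTriv0 L e0).map_smul ((transUnit L e0 e1 : R01ˣ) : R01) 1
  rw [smul_eq_mul, mul_one] at h2
  exact h2.symm

/-- A line module with free chart modules is isomorphic to the Čech line of its transition
unit. -/
noncomputable def cechIsoOfTriv (L : QC2 A R0 R1 R01) (e0 : R0 ≃ₗ[R0] L.N0)
    (e1 : R1 ≃ₗ[R1] L.N1) :
    QC2.Iso (cechLine (A := A) (R0 := R0) (R1 := R1) (transUnit L e0 e1)) L where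
  e0 := e0
  e1 := e1
  e01 := triv01OfTriv0 L e0
  comm0 := fun x => by
    show triv01OfTriv0 L e0 (algebraMap R0 R01 x) = L.r0 (e0 x)
    have h2 := (triv01OfTriv0 L e0).map_smul (algebraMap R0 R01 x) 1
    rw [smul_eq_mul, mul_one] at h2
    rw [h2, triv01OfTriv0_one, algebraMap_smul, ← map_smul, ← map_smul, smul_eq_mul, mul_one]
  comm1 := fun x => by
    show triv01OfTriv0 L e0 (((transUnit L e0 e1 : R01ˣ) : R01) * algebraMap R1 R01 x) =
      L.r1 (e1 x)
    have h2 := (triv01OfTriv0 L e0).map_smul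
      (((transUnit L e0 e1 : R01ˣ) : R01) * algebraMap R1 R01 x) 1
    rw [smul_eq_mul, mul_one] at h2
    rw [h2, triv01OfTriv0_one, mul_comm, mul_smul, transUnit_smul, algebraMap_smul, ← map_smul,
      ← map_smul, smul_eq_mul, mul_one]

/-- Every class represented by a chartwise free line module is a Čech class. -/
theorem exists_cechClass_eq_of_triv (L : QC2 A R0 R1 R01) (hL : L.IsLine)
    (e0 : R0 ≃ₗ[R0] L.N0) (e1 : R1 ≃ₗ[R1] L.N1) :
    LinePic.mk c L hL = cechClass c (transUnit L e0 e1) :=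
  (LinePic.mk_eq_mk _ _ (cechIsoOfTriv L e0 e1)).symm

end Cech

/-! ### Base change of Čech lines -/

section Cube

variable {A R0 R1 R01 A' R0' R1' R01' : Type u}
  [CommRing A] [CommRing R0] [CommRing R1] [CommRing R01]
  [Algebra A R0] [Algebra A R1] [Algebra A R01] [Algebra R0 R01] [Algebra R1 R01]
  [IsScalarTower A R0 R01] [IsScalarTower A R1 R01]
  [CommRing A'] [CommRing R0'] [CommRing R1'] [CommRing R01']
  [Algebra A' R0'] [Algebra A' R1'] [Algebra A' R01'] [Algebra R0' R01'] [Algebra R1' R01']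
  [IsScalarTower A' R0' R01'] [IsScalarTower A' R1' R01']
  [Algebra R0 R0'] [Algebra R1 R1'] [Algebra R01 R01']

/-- The Čech line of the image of `u` is the base change of the Čech line of `u`. -/
noncomputable def liftDataCech
    (hc0 : (algebraMap R0' R01').comp (algebraMap R0 R0') =
      (algebraMap R01 R01').comp (algebraMap R0 R01))
    (hc1 : (algebraMap R1' R01').comp (algebraMap R1 R1') =
      (algebraMap R01 R01').comp (algebraMap R1 R01)) (u : R01ˣ) :
    LiftData (cechLine (A := A) (R0 := R0) (R1 := R1) u)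
      (cechLine (A := A') (R0 := R0') (R1 := R1')
        (Units.map (algebraMap R01 R01' : R01 →* R01') u)) where
  e0 := AlgebraTensorModule.rid R0 R0' R0'
  e1 := AlgebraTensorModule.rid R1 R1' R1'
  e01 := AlgebraTensorModule.rid R01 R01' R01'
  comm0 := rid_square (R := R0) (R' := R0') (S := R01) (S' := R01') hc0
  comm1 := fun x => by
    show AlgebraTensorModule.rid R01 R01' R01' (1 ⊗ₜ[R01] ((u : R01) * algebraMap R1 R01 x)) =
      algebraMap R01 R01' (u : R01) *
        algebraMap R1' R01' (AlgebraTensorModule.rid R1 R1' R1' (1 ⊗ₜ[R1] x))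
    rw [AlgebraTensorModule.rid_tmul, AlgebraTensorModule.rid_tmul,
      ← Algebra.algebraMap_eq_smul_one, ← Algebra.algebraMap_eq_smul_one, map_mul]
    congr 1
    exact (RingHom.congr_fun hc1 x).symm

variable
  (hc0 : (algebraMap R0' R01').comp (algebraMap R0 R0') =
    (algebraMap R01 R01').comp (algebraMap R0 R01))
  (hc1 : (algebraMap R1' R01').comp (algebraMap R1 R1') =
    (algebraMap R01 R01').comp (algebraMap R1 R01))
  (c : TwoChart A R0 R1 R01) (c' : TwoChart A' R0' R1' R01')

/-- Base change of a Čech class along a cube of rings. -/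
theorem bc_cechClass (u : R01ˣ) :
    LinePic.bc hc0 hc1 c c' (cechClass c u) =
      cechClass c' (Units.map (algebraMap R01 R01' : R01 →* R01') u) :=
  LinePic.bc_mk hc0 hc1 c c' (cechLine_isLine u) (liftDataCech hc0 hc1 u)

end Cube

/-! ### Specialisation to the hub `PicX` -/

section Hub

variable {W B0 B1 B01 : Type u} [CommRing W] [CommRing B0] [CommRing B1] [CommRing B01]
  [Algebra W B0] [Algebra W B1] [Algebra W B01] [Algebra B0 B01] [Algebra B1 B01]
  [IsScalarTower W B0 B01] [IsScalarTower W B1 B01]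
  (c0 : TwoChart W B0 B1 B01)

/-- Linear base change of a Čech class. -/
theorem PicX.map_cechClass (A A' : Type u) [CommRing A] [CommRing A'] [Algebra W A]
    [Algebra W A'] [Algebra A A'] [IsScalarTower W A A'] (u : (A ⊗[W] B01)ˣ) :
    PicX.map c0 A A' (cechClass (c0.baseChange A) u) =
      cechClass (c0.baseChange A')
        (Units.map (algebraMap (A ⊗[W] B01) (A' ⊗[W] B01) : A ⊗[W] B01 →* A' ⊗[W] B01) u) :=
  bc_cechClass (square_comm W A A' B0 B01) (square_comm W A A' B1 B01)
    (c0.baseChange A) (c0.baseChange A') u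

variable {c0}

/-- Semilinear base change of a Čech class. -/
theorem PicX.mapSemi_cechClass (S : ChartAut c0) {A A' : Type u} [CommRing A] [CommRing A']
    [Algebra W A] [Algebra W A'] (f : A →+* A')
    (hf : ∀ (w : W) (a : A), f (w • a) = S.σW w • f a) (u : (A ⊗[W] B01)ˣ) :
    PicX.mapSemi S f hf (cechClass (c0.baseChange A) u) =
      cechClass (c0.baseChange A')
        (Units.map (semiTensor S.σW f S.σ01 hf S.semi01 : A ⊗[W] B01 →* A' ⊗[W] B01) u) := by
  letI : Algebra A A' := f.toAlgebra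
  letI : Algebra (A ⊗[W] B0) (A' ⊗[W] B0) := (semiTensor S.σW f S.σ0 hf S.semi0).toAlgebra
  letI : Algebra (A ⊗[W] B1) (A' ⊗[W] B1) := (semiTensor S.σW f S.σ1 hf S.semi1).toAlgebra
  letI : Algebra (A ⊗[W] B01) (A' ⊗[W] B01) := (semiTensor S.σW f S.σ01 hf S.semi01).toAlgebra
  exact bc_cechClass (A := A) (A' := A') (S.square0 f hf) (S.square1 f hf)
    (c0.baseChange A) (c0.baseChange A') u

end Hub

end Fermat.Agent.T1.Red11
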