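import Mathlib
import Fermat.Agent.T1.RedIface75
import Fermat.Agent.Jac.BaseChange75.Trans

/-!
# T1A (S19), REDUCTION layer: functoriality of `PicX.map`  (helper11)

* `PicX.map_mk` : `PicX.map` of the class of `L` is the class of any base change of `L`
  (in the sense of `LiftData`); `PicX.map_mk_baseChange` for `L.baseChange A'`;
* `PicX.map_comp` : transitivity along a tower `A → A' → A''`;
* `PicX.map_self` : base change along the identity is the identity;
* `PicX.exists_liftData_of_map_eq` : if the class of `L'` is the image of the class of `L` then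
  `L'` is a base change of `L`.
-/

set_option autoImplicit false
set_option linter.unusedSectionVars false
set_option linter.style.haveILetI false

open TensorProduct

namespace Fermat.Agent.T1.Red11

open Fermat.Agent.Jac Fermat.Agent.Jac.JSmooth85Alg Fermat.Agent.Jac.JGroup85Pic
open Fermat.Agent.Jac.LineOps39 Fermat.Agent.Jac.BaseChange75
open Fermat.Agent.T1.RedIface75
open scoped Fermat.Agent.Jac.BaseChange75

universe u

section Hub

variable {W B0 B1 B01 : Type u} [CommRing W] [CommRing B0] [CommRing B1] [CommRing B01]
  [Algebra W B0] [Algebra W B1] [Algebra W B01] [Algebra B0 B01] [Algebra B1 B01]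
  [IsScalarTower W B0 B01] [IsScalarTower W B1 B01]
  (c0 : TwoChart W B0 B1 B01)

section Map

variable (A A' : Type u) [CommRing A] [CommRing A'] [Algebra W A] [Algebra W A']
  [Algebra A A'] [IsScalarTower W A A']

/-- `PicX.map` of the class of `L` is the class of any base change of `L`. -/
theorem PicX.map_mk {L : QC2 A (A ⊗[W] B0) (A ⊗[W] B1) (A ⊗[W] B01)}
    {L' : QC2 A' (A' ⊗[W] B0) (A' ⊗[W] B1) (A' ⊗[W] B01)} (hL : L.IsLine)
    (h : LiftData L L') :
    PicX.map c0 A A' (LinePic.mk (c0.baseChange A) L hL) =
      LinePic.mk (c0.baseChange A') L' (LiftData.isLine h hL) :=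
  LinePic.bc_mk (square_comm W A A' B0 B01) (square_comm W A A' B1 B01)
    (c0.baseChange A) (c0.baseChange A') hL h

/-- `PicX.map` of the class of `L` is the class of `L.baseChange A'`. -/
theorem PicX.map_mk_baseChange (L : QC2 A (A ⊗[W] B0) (A ⊗[W] B1) (A ⊗[W] B01))
    (hL : L.IsLine) :
    PicX.map c0 A A' (LinePic.mk (c0.baseChange A) L hL) =
      LinePic.mk (c0.baseChange A') (L.baseChange A') (baseChange_isLine A' L hL) :=
  PicX.map_mk c0 A A' hL (baseChange_liftData A' L)

/-- If the class of `L'` is the image of the class of `L`, then `L'` is a base change of `L`. -/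
theorem PicX.exists_liftData_of_map_eq {L : QC2 A (A ⊗[W] B0) (A ⊗[W] B1) (A ⊗[W] B01)}
    {L' : QC2 A' (A' ⊗[W] B0) (A' ⊗[W] B1) (A' ⊗[W] B01)} (hL : L.IsLine) (hL' : L'.IsLine)
    (h : PicX.map c0 A A' (LinePic.mk (c0.baseChange A) L hL) =
      LinePic.mk (c0.baseChange A') L' hL') : Nonempty (LiftData L L') :=
  LinePic.nonempty_liftData_of_bc_eq (square_comm W A A' B0 B01) (square_comm W A A' B1 B01)
    (c0.baseChange A) (c0.baseChange A') hL hL' h

end Map

section Comp

variable (A A' A'' : Type u) [CommRing A] [CommRing A'] [CommRing A'']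
  [Algebra W A] [Algebra W A'] [Algebra W A'']
  [Algebra A A'] [IsScalarTower W A A'] [Algebra A' A''] [IsScalarTower W A' A'']
  [Algebra A A''] [IsScalarTower W A A''] [IsScalarTower A A' A'']

/-- **Transitivity of base change** on the Picard groups. -/
theorem PicX.map_comp (x : PicX c0 A) :
    PicX.map c0 A' A'' (PicX.map c0 A A' x) = PicX.map c0 A A'' x := by
  obtain ⟨L, hL, rfl⟩ := LinePic.exists_rep x
  rw [PicX.map_mk_baseChange c0 A A' L hL,
    PicX.map_mk_baseChange c0 A' A'' (L.baseChange A') (baseChange_isLine A' L hL)]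
  exact (PicX.map_mk c0 A A'' hL
    (LiftData.transTensor (baseChange_liftData A' L)
      (baseChange_liftData A'' (L.baseChange A')))).symm

theorem PicX.map_comp' :
    (PicX.map c0 A' A'').comp (PicX.map c0 A A') = PicX.map c0 A A'' :=
  MonoidHom.ext (PicX.map_comp c0 A A' A'')

end Comp

section Self

attribute [local instance 2000] algLeft

variable (A : Type u) [CommRing A] [Algebra W A]

/-- Base change along the identity is the identity. -/
theorem PicX.map_self (x : PicX c0 A) : PicX.map c0 A A x = x := by
  obtain ⟨L, hL, rfl⟩ := LinePic.exists_rep x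
  exact PicX.map_mk c0 A A hL (liftData_self L)

end Self

end Hub

end Fermat.Agent.T1.Red11
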