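import Mathlib
import Fermat.Agent.T1.RedIface75
import Fermat.Agent.T1.CechFormal70.BaseChange
import Fermat.Agent.T1.Red11.CechLine

/-!
# T1A (S19), REDUCTION layer: `Ĵ(R, m) → Pic X_R` is injective  (helper11)

`P : Pkg R T0 T1 T01 g` (helper70's Čech package) on a two-chart system `c`, `m` a nilpotent ideal.

* `exists_unitsOne_of_bdry` : a coboundary `r0 c0 * r1 c1` (`c_j` arbitrary units of `T_j`)
  which is `≡ 1 mod m` is a coboundary of units `≡ 1 mod m` (uses `H⁰(R/m) = R/m`);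
* `cechClass_eq_iff_cls_eq` : for units `u, v ≡ 1 mod m` of `T01`,
  `cechClass c u = cechClass c v ↔ P.cls m u = P.cls m v`.
-/

set_option autoImplicit false
set_option linter.unusedSectionVars false
set_option maxHeartbeats 400000

open TensorProduct

namespace Fermat.Agent.T1.Red11

open Fermat.Agent.Jac Fermat.Agent.Jac.JGroup85Pic
open Fermat.Agent.T1.RedIface75 Fermat.Agent.T1.CechFormal70

universe u

section Pkg

variable {R T0 T1 T01 : Type u} [CommRing R] [CommRing T0] [CommRing T1] [CommRing T01]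
  [Algebra R T0] [Algebra R T1] [Algebra R T01] {g : ℕ} (P : Pkg R T0 T1 T01 g) {m : Ideal R}

/-- A coboundary of arbitrary chart units which is `≡ 1` modulo the nilpotent ideal `m` is a
coboundary of chart units `≡ 1` modulo `m`. -/
theorem exists_unitsOne_of_bdry (hm : IsNilpotent m) (c0 : T0ˣ) (c1 : T1ˣ)
    (h : P.r0 (c0 : T0) * P.r1 (c1 : T1) - 1 ∈ eI m T01) :
    ∃ (v0 : unitsOne (eI m T0)) (v1 : unitsOne (eI m T1)),
      P.r0 (((v0 : T0ˣ) : T0)) * P.r1 (((v1 : T1ˣ) : T1)) = P.r0 (c0 : T0) * P.r1 (c1 : T1) := by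
  set d0 : T0 := ((c0⁻¹ : T0ˣ) : T0) with hd0
  set d1 : T1 := ((c1⁻¹ : T1ˣ) : T1) with hd1
  have hcd0 : (c0 : T0) * d0 = 1 := Units.mul_inv c0
  have hcd1 : (c1 : T1) * d1 = 1 := Units.mul_inv c1
  have hr1cd : P.r1 (c1 : T1) * P.r1 d1 = 1 := by rw [← map_mul, hcd1, map_one]
  have hr0cd : P.r0 (c0 : T0) * P.r0 d0 = 1 := by rw [← map_mul, hcd0, map_one]
  -- first application of `h0`
  have h2 : P.r0 (c0 : T0) - P.r1 d1 ∈ eI m T01 := by
    have : P.r0 (c0 : T0) - P.r1 d1 =
        (P.r0 (c0 : T0) * P.r1 (c1 : T1) - 1) * P.r1 d1 := by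
      linear_combination (-(P.r0 (c0 : T0))) * hr1cd
    rw [this]
    exact Ideal.mul_mem_right _ _ h
  obtain ⟨r, hr0, hr1⟩ := P.h0 m _ _ h2
  -- second application of `h0`
  have h3 : P.r0 d0 - P.r1 (c1 : T1) ∈ eI m T01 := by
    have : P.r0 d0 - P.r1 (c1 : T1) =
        -((P.r0 (c0 : T0) * P.r1 (c1 : T1) - 1) * P.r0 d0) := by
      linear_combination (P.r1 (c1 : T1)) * hr0cd
    rw [this]
    exact neg_mem (Ideal.mul_mem_right _ _ h)
  obtain ⟨r', hr0', hr1'⟩ := P.h0 m _ _ h3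
  -- `r * r' ≡ 1 mod m`
  have hrr : r * r' - 1 ∈ m := by
    apply P.inj m
    · have : algebraMap R T0 (r * r' - 1) =
          -(((c0 : T0) - algebraMap R T0 r) * algebraMap R T0 r' +
            (c0 : T0) * (d0 - algebraMap R T0 r')) := by
        rw [map_sub, map_mul, map_one]
        linear_combination (1 : T0) * hcd0
      rw [this]
      exact neg_mem (Ideal.add_mem _ (Ideal.mul_mem_right _ _ hr0) (Ideal.mul_mem_left _ _ hr0'))
    · have : algebraMap R T1 (r * r' - 1) =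
          -((d1 - algebraMap R T1 r) * algebraMap R T1 r' +
            d1 * ((c1 : T1) - algebraMap R T1 r')) := by
        rw [map_sub, map_mul, map_one]
        linear_combination (1 : T1) * hcd1
      rw [this]
      exact neg_mem (Ideal.add_mem _ (Ideal.mul_mem_right _ _ hr1) (Ideal.mul_mem_left _ _ hr1'))
  have hunit : IsUnit r := by
    have h1 : IsUnit (r * r') := by
      have := (isNilpotent_of_mem hm hrr).isUnit_add_one
      simpa using this
    exact isUnit_of_mul_isUnit_left h1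
  obtain ⟨ρ, hρ⟩ := hunit
  have hρ0 : algebraMap R T0 r * algebraMap R T0 ((ρ⁻¹ : Rˣ) : R) = 1 := by
    rw [← map_mul, ← hρ, Units.mul_inv, map_one]
  refine ⟨⟨c0 * Units.map (algebraMap R T0 : R →* T0) ρ⁻¹, ?_⟩,
    ⟨c1 * Units.map (algebraMap R T1 : R →* T1) ρ, ?_⟩, ?_⟩
  · rw [mem_unitsOne]
    have : ((c0 * Units.map (algebraMap R T0 : R →* T0) ρ⁻¹ : T0ˣ) : T0) - 1 =
        ((c0 : T0) - algebraMap R T0 r) * algebraMap R T0 ((ρ⁻¹ : Rˣ) : R) := by
      rw [Units.val_mul, Units.coe_map, MonoidHom.coe_coe]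
      linear_combination (1 : T0) * hρ0
    rw [this]
    exact Ideal.mul_mem_right _ _ hr0
  · rw [mem_unitsOne]
    have : ((c1 * Units.map (algebraMap R T1 : R →* T1) ρ : T1ˣ) : T1) - 1 =
        -((c1 : T1) * (d1 - algebraMap R T1 r)) := by
      rw [Units.val_mul, Units.coe_map, MonoidHom.coe_coe, hρ]
      linear_combination (1 : T1) * hcd1
    rw [this]
    exact neg_mem (Ideal.mul_mem_left _ _ hr1)
  · simp only [Units.val_mul, Units.coe_map, MonoidHom.coe_coe, map_mul, AlgHom.commutes]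
    have h01 : algebraMap R T01 ((ρ⁻¹ : Rˣ) : R) * algebraMap R T01 (ρ : R) = 1 := by
      rw [← map_mul, Units.inv_mul, map_one]
    linear_combination (P.r0 (c0 : T0) * P.r1 (c1 : T1)) * h01

end Pkg

section Compare

variable {R T0 T1 T01 : Type u} [CommRing R] [CommRing T0] [CommRing T1] [CommRing T01]
  [Algebra R T0] [Algebra R T1] [Algebra R T01] [Algebra T0 T01] [Algebra T1 T01]
  [IsScalarTower R T0 T01] [IsScalarTower R T1 T01]
  (c : TwoChart R T0 T1 T01) {g : ℕ} (P : Pkg R T0 T1 T01 g)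
  (hr0 : ∀ x, P.r0 x = algebraMap T0 T01 x) (hr1 : ∀ x, P.r1 x = algebraMap T1 T01 x)
  {m : Ideal R}

include hr0 hr1 in
/-- `Ĵ(R, m) → Pic X_R` is well defined and injective: for units `u, v ≡ 1 mod m`, the Čech
classes of `u` and `v` agree iff `u` and `v` have the same class in `Ĵ(R, m)`. -/
theorem cechClass_eq_iff_cls_eq (hm : IsNilpotent m) (u v : unitsOne (eI m T01)) :
    cechClass c (u : T01ˣ) = cechClass c (v : T01ˣ) ↔ P.cls m u = P.cls m v := by
  rw [cechClass_eq_cechClass_iff, P.cls_eq_cls_iff]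
  constructor
  · rintro ⟨a0, a1, h⟩
    -- the coboundary is `≡ 1`
    have hmem : ((u⁻¹ * v : unitsOne (eI m T01)) : T01ˣ) =
        Units.map (algebraMap T0 T01 : T0 →* T01) a0 *
          Units.map (algebraMap T1 T01 : T1 →* T01) a1 := by
      rw [Subgroup.coe_mul, Subgroup.coe_inv, h, mul_assoc, inv_mul_cancel_left]
    have h1 : P.r0 (a0 : T0) * P.r1 (a1 : T1) - 1 ∈ eI m T01 := by
      have := (u⁻¹ * v).2
      rw [mem_unitsOne, hmem] at this
      rw [hr0, hr1]
      simpa only [Units.val_mul, Units.coe_map, MonoidHom.coe_coe] using this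
    obtain ⟨v0, v1, hv⟩ := exists_unitsOne_of_bdry P hm a0 a1 h1
    refine ⟨v0, v1, ?_⟩
    rw [h]
    ext
    simp only [Units.val_mul, Units.coe_map, MonoidHom.coe_coe]
    rw [mul_assoc, mul_assoc]
    congr 1
    rw [← hr0, ← hr1]
    exact hv.symm
  · rintro ⟨u0, u1, h⟩
    refine ⟨(u0 : T0ˣ), (u1 : T1ˣ), ?_⟩
    rw [h]
    ext
    simp only [Units.val_mul, Units.coe_map, MonoidHom.coe_coe]
    rw [← hr0, ← hr1]

end Compare

end Fermat.Agent.T1.Red11
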