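import Mathlib
import Fermat.Agent.T1.RedIface75
import Fermat.Agent.Jac.JGroup85Rig
import Fermat.Agent.T1.Red11.CechLine
import Fermat.Agent.T1.Red11.MapComp

/-!
# T1A (S19), REDUCTION layer: line modules trivial modulo a nilpotent ideal  (helper11)

`R → R'` a surjection of `W`-algebras with nilpotent kernel.

* `algebraMap_left_surjective`, `isNilpotent_ker_algebraMap_left`, `algebraMap_left_eq_zero_iff` :
  the map `R ⊗[W] B → R' ⊗[W] B` is surjective with nilpotent kernel `ker(R → R') · (R ⊗[W] B)`;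
* `exists_unit_lift` : units lift along a surjection with nilpotent kernel;
* `exists_triv_of_liftData_unit` : a line module on `X_R` whose base change to `X_{R'}` is trivial
  is free on both charts;
* `exists_cechClass_of_map_eq_one` : a class of `Pic X_R` which dies in `Pic X_{R'}` is the Čech
  class of a unit `u` of `R ⊗[W] B01` whose image in `R' ⊗[W] B01` is `1`.
-/

set_option autoImplicit false
set_option linter.unusedSectionVars false
set_option linter.style.haveILetI false
set_option maxHeartbeats 400000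

open TensorProduct

namespace Fermat.Agent.T1.Red11

open Fermat.Agent.Jac Fermat.Agent.Jac.JSmooth85Alg Fermat.Agent.Jac.JGroup85Pic
open Fermat.Agent.Jac.LineOps39 Fermat.Agent.Jac.BaseChange75
open Fermat.Agent.T1.RedIface75
open scoped Fermat.Agent.Jac.BaseChange75

universe u

/-! ### Units and nilpotent kernels -/

section Units

variable {S S' : Type*} [CommRing S] [CommRing S'] (f : S →+* S')

theorem isNilpotent_of_mem_ker (hn : IsNilpotent (RingHom.ker f)) {x : S}
    (hx : x ∈ RingHom.ker f) : IsNilpotent x := by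
  obtain ⟨n, hn⟩ := hn
  refine ⟨n, ?_⟩
  have := Ideal.pow_mem_pow hx n
  rw [hn] at this
  simpa using this

/-- An element whose image under a map with nilpotent kernel is a unit (with a preimage of the
inverse) is a unit. -/
theorem isUnit_of_map_mul_eq_one (hn : IsNilpotent (RingHom.ker f)) {x y : S}
    (h : f x * f y = 1) : IsUnit x := by
  have hk : x * y - 1 ∈ RingHom.ker f := by
    rw [RingHom.mem_ker, map_sub, map_mul, h, map_one, sub_self]
  have h1 : IsUnit (x * y) := by
    have := (isNilpotent_of_mem_ker f hn hk).isUnit_add_one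
    simpa using this
  exact isUnit_of_mul_isUnit_left h1

/-- Units lift along a surjection with nilpotent kernel. -/
theorem exists_unit_lift (hs : Function.Surjective f) (hn : IsNilpotent (RingHom.ker f))
    (a' : S'ˣ) : ∃ a : Sˣ, f (a : S) = (a' : S') := by
  obtain ⟨x, hx⟩ := hs (a' : S')
  obtain ⟨y, hy⟩ := hs ((a'⁻¹ : S'ˣ) : S')
  have hu : IsUnit x := isUnit_of_map_mul_eq_one f hn (y := y) (by rw [hx, hy, Units.mul_inv])
  exact ⟨hu.unit, by rw [IsUnit.unit_spec, hx]⟩

end Units

/-! ### The ring maps `R ⊗[W] B → R' ⊗[W] B` -/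

section Rings

variable (W R R' B : Type u) [CommRing W] [CommRing R] [CommRing R'] [CommRing B]
  [Algebra W R] [Algebra W R'] [Algebra W B] [Algebra R R'] [IsScalarTower W R R']

theorem algebraMap_left_surjective (hs : Function.Surjective (algebraMap R R')) :
    Function.Surjective (algebraMap (R ⊗[W] B) (R' ⊗[W] B)) :=
  JGroup85Rig.tensor_left_surjective W R R' B hs

theorem isNilpotent_ker_algebraMap_left (hs : Function.Surjective (algebraMap R R'))
    (hn : IsNilpotent (RingHom.ker (algebraMap R R'))) :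
    IsNilpotent (RingHom.ker (algebraMap (R ⊗[W] B) (R' ⊗[W] B))) :=
  JGroup85Rig.tensor_left_ker_isNilpotent W R R' B hs hn

theorem includeLeft_eq_algebraMap (r : R) :
    (Algebra.TensorProduct.includeLeft : R →ₐ[W] R ⊗[W] B) r = algebraMap R (R ⊗[W] B) r := by
  simp [Algebra.TensorProduct.algebraMap_apply]

/-- The kernel of `R ⊗[W] B → R' ⊗[W] B` is the extension of the kernel of `R → R'`
(elementwise form). -/
theorem algebraMap_left_eq_zero_iff (hs : Function.Surjective (algebraMap R R'))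
    (x : R ⊗[W] B) :
    algebraMap (R ⊗[W] B) (R' ⊗[W] B) x = 0 ↔
      x ∈ (RingHom.ker (algebraMap R R')).map (algebraMap R (R ⊗[W] B)) := by
  have hker := Algebra.TensorProduct.rTensor_ker (R := W) (C := B)
    (IsScalarTower.toAlgHom R R R') hs
  have hmap : (RingHom.ker (IsScalarTower.toAlgHom R R R')).map
      (Algebra.TensorProduct.includeLeft : R →ₐ[W] R ⊗[W] B) =
      (RingHom.ker (algebraMap R R')).map (algebraMap R (R ⊗[W] B)) := by
    apply le_antisymm
    · rw [Ideal.map_le_iff_le_comap]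
      intro r hr
      rw [Ideal.mem_comap, includeLeft_eq_algebraMap]
      exact Ideal.mem_map_of_mem _ hr
    · rw [Ideal.map_le_iff_le_comap]
      intro r hr
      rw [Ideal.mem_comap, ← includeLeft_eq_algebraMap]
      exact Ideal.mem_map_of_mem _ hr
  rw [← hmap, ← hker, RingHom.mem_ker]
  rfl

end Rings

/-! ### Trivial modulo a nilpotent ideal implies chartwise free -/

section Free

variable {S S' : Type u} [CommRing S] [CommRing S'] [Algebra S S']

/-- An invertible (more generally projective) module over `S` whose base change along a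
surjection `S → S'` with nilpotent kernel is free of rank one is free of rank one. -/
theorem nonempty_linearEquiv_of_baseChange (hs : Function.Surjective (algebraMap S S'))
    (hn : IsNilpotent (RingHom.ker (algebraMap S S'))) {N : Type u} [AddCommGroup N] [Module S N]
    [Module.Projective S N] (e : S' ⊗[S] N ≃ₗ[S'] S') : Nonempty (S ≃ₗ[S] N) := by
  obtain ⟨ρ, -⟩ := LiftNilp85.exists_linearEquiv_baseChange_eq (M := S) (N := N) hs hn
    ((AlgebraTensorModule.rid S S' S') ≪≫ₗ e.symm)
  exact ⟨ρ⟩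

end Free

section Hub

variable {W B0 B1 B01 : Type u} [CommRing W] [CommRing B0] [CommRing B1] [CommRing B01]
  [Algebra W B0] [Algebra W B1] [Algebra W B01] [Algebra B0 B01] [Algebra B1 B01]
  [IsScalarTower W B0 B01] [IsScalarTower W B1 B01]
  (c0 : TwoChart W B0 B1 B01)
  (R R' : Type u) [CommRing R] [CommRing R'] [Algebra W R] [Algebra W R']
  [Algebra R R'] [IsScalarTower W R R']

/-- A line module on `X_R` whose base change to `X_{R'}` is trivial is free on both charts. -/
theorem exists_triv_of_liftData_unit (hs : Function.Surjective (algebraMap R R'))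
    (hn : IsNilpotent (RingHom.ker (algebraMap R R')))
    {L : QC2 R (R ⊗[W] B0) (R ⊗[W] B1) (R ⊗[W] B01)} (hL : L.IsLine)
    (h : LiftData L (QC2.unit : QC2 R' (R' ⊗[W] B0) (R' ⊗[W] B1) (R' ⊗[W] B01))) :
    Nonempty ((R ⊗[W] B0) ≃ₗ[R ⊗[W] B0] L.N0) ∧ Nonempty ((R ⊗[W] B1) ≃ₗ[R ⊗[W] B1] L.N1) := by
  haveI := hL.inv0
  haveI := hL.inv1
  exact ⟨nonempty_linearEquiv_of_baseChange (algebraMap_left_surjective W R R' B0 hs)
      (isNilpotent_ker_algebraMap_left W R R' B0 hs hn) h.e0,
    nonempty_linearEquiv_of_baseChange (algebraMap_left_surjective W R R' B1 hs)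
      (isNilpotent_ker_algebraMap_left W R R' B1 hs hn) h.e1⟩

/-- **Trivial modulo a nilpotent ideal ⇒ Čech**: a class of `Pic X_R` which dies in `Pic X_{R'}`
(`R → R'` surjective with nilpotent kernel) is the Čech class of a unit of `R ⊗[W] B01` whose
image in `R' ⊗[W] B01` is `1`. -/
theorem exists_cechClass_of_map_eq_one (hs : Function.Surjective (algebraMap R R'))
    (hn : IsNilpotent (RingHom.ker (algebraMap R R'))) (x : PicX c0 R)
    (hx : PicX.map c0 R R' x = 1) :
    ∃ u : (R ⊗[W] B01)ˣ, x = cechClass (c0.baseChange R) u ∧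
      algebraMap (R ⊗[W] B01) (R' ⊗[W] B01) (u : R ⊗[W] B01) = 1 := by
  obtain ⟨L, hL, rfl⟩ := LinePic.exists_rep x
  rw [LinePic.one_def] at hx
  obtain ⟨h⟩ := PicX.exists_liftData_of_map_eq c0 R R' hL isLine_unit hx
  obtain ⟨⟨e0⟩, ⟨e1⟩⟩ := exists_triv_of_liftData_unit R R' hs hn hL h
  -- the class is a Čech class
  have h1 := exists_cechClass_eq_of_triv (c0.baseChange R) L hL e0 e1
  set u := transUnit L e0 e1 with hu
  -- its reduction is a trivial Čech class, hence a coboundary
  have h2 : cechClass (c0.baseChange R')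
      (Units.map (algebraMap (R ⊗[W] B01) (R' ⊗[W] B01) : R ⊗[W] B01 →* R' ⊗[W] B01) u) = 1 := by
    rw [← PicX.map_cechClass, ← h1, LinePic.one_def]
    exact hx
  rw [cechClass_eq_one_iff'] at h2
  obtain ⟨a0', a1', h2⟩ := h2
  -- lift the coboundary
  obtain ⟨a0, ha0⟩ := exists_unit_lift (algebraMap (R ⊗[W] B0) (R' ⊗[W] B0))
    (algebraMap_left_surjective W R R' B0 hs) (isNilpotent_ker_algebraMap_left W R R' B0 hs hn) a0'
  obtain ⟨a1, ha1⟩ := exists_unit_lift (algebraMap (R ⊗[W] B1) (R' ⊗[W] B1))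
    (algebraMap_left_surjective W R R' B1 hs) (isNilpotent_ker_algebraMap_left W R R' B1 hs hn) a1'
  refine ⟨u * Units.map (algebraMap (R ⊗[W] B0) (R ⊗[W] B01) : _ →* _) a0⁻¹ *
    Units.map (algebraMap (R ⊗[W] B1) (R ⊗[W] B01) : _ →* _) a1⁻¹, ?_, ?_⟩
  · rw [h1]
    exact (cechClass_eq_cechClass_iff (c0.baseChange R) u _).2 ⟨a0⁻¹, a1⁻¹, rfl⟩
  · have hc0 := RingHom.congr_fun (square_comm W R R' B0 B01)
    have hc1 := RingHom.congr_fun (square_comm W R R' B1 B01)
    have h3 := congrArg Units.val h2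
    simp only [Units.val_mul, Units.coe_map, MonoidHom.coe_coe] at h3
    simp only [Units.val_mul, Units.coe_map, MonoidHom.coe_coe, map_mul]
    have e0' : algebraMap (R ⊗[W] B01) (R' ⊗[W] B01)
        (algebraMap (R ⊗[W] B0) (R ⊗[W] B01) ((a0⁻¹ : (R ⊗[W] B0)ˣ) : R ⊗[W] B0)) =
        algebraMap (R' ⊗[W] B0) (R' ⊗[W] B01) ((a0'⁻¹ : (R' ⊗[W] B0)ˣ) : R' ⊗[W] B0) := by
      have := (hc0 ((a0⁻¹ : (R ⊗[W] B0)ˣ) : R ⊗[W] B0)).symm
      simp only [RingHom.comp_apply] at this
      rw [this]
      congr 1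
      have hmap : Units.map (algebraMap (R ⊗[W] B0) (R' ⊗[W] B0) : _ →* _) a0 = a0' :=
        Units.ext ha0
      rw [← hmap, ← map_inv]
      rfl
    have e1' : algebraMap (R ⊗[W] B01) (R' ⊗[W] B01)
        (algebraMap (R ⊗[W] B1) (R ⊗[W] B01) ((a1⁻¹ : (R ⊗[W] B1)ˣ) : R ⊗[W] B1)) =
        algebraMap (R' ⊗[W] B1) (R' ⊗[W] B01) ((a1'⁻¹ : (R' ⊗[W] B1)ˣ) : R' ⊗[W] B1) := by
      have := (hc1 ((a1⁻¹ : (R ⊗[W] B1)ˣ) : R ⊗[W] B1)).symm
      simp only [RingHom.comp_apply] at this
      rw [this]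
      congr 1
      have hmap : Units.map (algebraMap (R ⊗[W] B1) (R' ⊗[W] B1) : _ →* _) a1 = a1' :=
        Units.ext ha1
      rw [← hmap, ← map_inv]
      rfl
    rw [e0', e1', h3]
    have i0 : algebraMap (R' ⊗[W] B0) (R' ⊗[W] B01) (a0' : R' ⊗[W] B0) *
        algebraMap (R' ⊗[W] B0) (R' ⊗[W] B01) ((a0'⁻¹ : (R' ⊗[W] B0)ˣ) : R' ⊗[W] B0) = 1 := by
      rw [← map_mul, Units.mul_inv, map_one]
    have i1 : algebraMap (R' ⊗[W] B1) (R' ⊗[W] B01) (a1' : R' ⊗[W] B1) *
        algebraMap (R' ⊗[W] B1) (R' ⊗[W] B01) ((a1'⁻¹ : (R' ⊗[W] B1)ˣ) : R' ⊗[W] B1) = 1 := by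
      rw [← map_mul, Units.mul_inv, map_one]
    calc _ = (algebraMap (R' ⊗[W] B0) (R' ⊗[W] B01) (a0' : R' ⊗[W] B0) *
          algebraMap (R' ⊗[W] B0) (R' ⊗[W] B01) ((a0'⁻¹ : (R' ⊗[W] B0)ˣ) : R' ⊗[W] B0)) *
        (algebraMap (R' ⊗[W] B1) (R' ⊗[W] B01) (a1' : R' ⊗[W] B1) *
          algebraMap (R' ⊗[W] B1) (R' ⊗[W] B01) ((a1'⁻¹ : (R' ⊗[W] B1)ˣ) : R' ⊗[W] B1)) := by
          ring
      _ = 1 := by rw [i0, i1, one_mul]

end Hub

/-! ### The zero ring -/

section Zero

variable {A R0 R1 R01 : Type u} [CommRing A] [CommRing R0] [CommRing R1] [CommRing R01]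
  [Algebra A R0] [Algebra A R1] [Algebra A R01] [Algebra R0 R01] [Algebra R1 R01]
  [IsScalarTower A R0 R01] [IsScalarTower A R1 R01]

/-- Over the zero ring the Picard group is trivial. -/
theorem linePic_subsingleton [Subsingleton R0] [Subsingleton R1] [Subsingleton R01]
    (c : TwoChart A R0 R1 R01) : Subsingleton (LinePic c) := by
  refine ⟨fun x y => ?_⟩
  obtain ⟨L, hL, rfl⟩ := LinePic.exists_rep x
  obtain ⟨M, hM, rfl⟩ := LinePic.exists_rep y
  haveI : Subsingleton L.N0 := Module.subsingleton R0 L.N0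
  haveI : Subsingleton L.N1 := Module.subsingleton R1 L.N1
  haveI : Subsingleton L.N01 := Module.subsingleton R01 L.N01
  haveI : Subsingleton M.N0 := Module.subsingleton R0 M.N0
  haveI : Subsingleton M.N1 := Module.subsingleton R1 M.N1
  haveI : Subsingleton M.N01 := Module.subsingleton R01 M.N01
  exact LinePic.mk_eq_mk hL hM
    { e0 := LinearEquiv.ofSubsingleton L.N0 M.N0
      e1 := LinearEquiv.ofSubsingleton L.N1 M.N1
      e01 := LinearEquiv.ofSubsingleton L.N01 M.N01
      comm0 := fun _ => Subsingleton.elim _ _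
      comm1 := fun _ => Subsingleton.elim _ _ }

end Zero

end Fermat.Agent.T1.Red11
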