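import Mathlib
import Fermat.Agent.T1.RedIface75
import Fermat.Agent.T1.CechFormal70.BaseChange
import Fermat.Agent.T1.Red11.CechLine
import Fermat.Agent.T1.Red11.MapComp
import Fermat.Agent.T1.Red11.NilpTriv
import Fermat.Agent.T1.Red11.JhatPic

/-!
# T1A (S19), REDUCTION layer, brick R-d: COORD-EU  (helper11)

`D : CechData W B0 B1 B01 g` (helper70) on the two-chart system `c0`, with restriction maps the
structure maps `B_j → B01`.

* `existsUnique_coord_of_map_eq_one` : `R → R'` a surjection of `W`-algebras with nilpotent kernel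
  `m`; every class `x ∈ Pic X_R` which dies in `Pic X_{R'}` is the Čech class of
  `∏ (1 + a_i ⊗ b_i)` for a UNIQUE `a ∈ m^g`;
* `coordExistsUnique` : `RedIface75.CoordExistsUnique c0 O D.b` for every DVR `O` over `W`.
-/

set_option autoImplicit false
set_option linter.unusedSectionVars false
set_option linter.style.haveILetI false
set_option maxHeartbeats 400000

open TensorProduct

namespace Fermat.Agent.T1.Red11

open Fermat.Agent.Jac Fermat.Agent.Jac.JSmooth85Alg Fermat.Agent.Jac.JGroup85Pic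
open Fermat.Agent.Jac.LineOps39 Fermat.Agent.Jac.BaseChange75
open Fermat.Agent.T1.RedIface75 Fermat.Agent.T1.CechFormal70
open scoped Fermat.Agent.Jac.BaseChange75

universe u

section General

variable {W B0 B1 B01 : Type u} [CommRing W] [CommRing B0] [CommRing B1] [CommRing B01]
  [Algebra W B0] [Algebra W B1] [Algebra W B01] [Algebra B0 B01] [Algebra B1 B01]
  [IsScalarTower W B0 B01] [IsScalarTower W B1 B01]
  (c0 : TwoChart W B0 B1 B01) {g : ℕ} (D : CechData W B0 B1 B01 g)
  (hρ0 : ∀ x, D.ρ0 x = algebraMap B0 B01 x) (hρ1 : ∀ x, D.ρ1 x = algebraMap B1 B01 x)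

include hρ0 in
theorem pkg_r0_eq_algebraMap (R : Type u) [CommRing R] [Algebra W R] (z : R ⊗[W] B0) :
    (D.pkg R).r0 z = algebraMap (R ⊗[W] B0) (R ⊗[W] B01) z := by
  have h : D.ρ0 = IsScalarTower.toAlgHom W B0 B01 := AlgHom.ext hρ0
  show Algebra.TensorProduct.map (AlgHom.id R R) D.ρ0 z =
    Algebra.TensorProduct.map (AlgHom.id R R) (IsScalarTower.toAlgHom W B0 B01) z
  rw [h]

include hρ1 in
theorem pkg_r1_eq_algebraMap (R : Type u) [CommRing R] [Algebra W R] (z : R ⊗[W] B1) :
    (D.pkg R).r1 z = algebraMap (R ⊗[W] B1) (R ⊗[W] B01) z := by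
  have h : D.ρ1 = IsScalarTower.toAlgHom W B1 B01 := AlgHom.ext hρ1
  show Algebra.TensorProduct.map (AlgHom.id R R) D.ρ1 z =
    Algebra.TensorProduct.map (AlgHom.id R R) (IsScalarTower.toAlgHom W B1 B01) z
  rw [h]

/-- The unit `φ(a)` of helper70's package is the Čech element `∏ (1 + a_i ⊗ b_i)`. -/
theorem coe_phiUnit_eq_cechElt (R : Type u) [CommRing R] [Algebra W R] {m : Ideal R}
    (hm : IsNilpotent m) (a : Fin g → m) :
    ((((D.pkg R).phiUnit hm a : unitsOne (eI m (R ⊗[W] B01))) : (R ⊗[W] B01)ˣ) : R ⊗[W] B01) =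
      cechElt D.b (fun i => (a i : R)) := by
  rw [Pkg.coe_phiUnit]
  unfold Pkg.phiT cechElt
  refine Finset.prod_congr rfl (fun i _ => ?_)
  rw [CechData.pkg_β, TensorProduct.smul_tmul', smul_eq_mul, mul_one]

include hρ0 hρ1 in
/-- **COORD-EU, general form**: `R → R'` a surjection of `W`-algebras with nilpotent kernel `m`.
Every class of `Pic X_R` which dies in `Pic X_{R'}` is the Čech class of `∏ (1 + a_i ⊗ b_i)` for a
unique `a ∈ m^g`. -/
theorem existsUnique_coord_of_map_eq_one (R R' : Type u) [CommRing R] [CommRing R']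
    [Algebra W R] [Algebra W R'] [Algebra R R'] [IsScalarTower W R R']
    (hs : Function.Surjective (algebraMap R R'))
    (hn : IsNilpotent (RingHom.ker (algebraMap R R'))) (x : PicX c0 R)
    (hx : PicX.map c0 R R' x = 1) :
    ∃! a : Fin g → R, (∀ i, a i ∈ RingHom.ker (algebraMap R R')) ∧
      ∃ u : (R ⊗[W] B01)ˣ, (u : R ⊗[W] B01) = cechElt D.b a ∧
        x = cechClass (c0.baseChange R) u := by
  set m : Ideal R := RingHom.ker (algebraMap R R') with hm_def
  set P := D.pkg R with hP
  have hP0 := pkg_r0_eq_algebraMap D hρ0 R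
  have hP1 := pkg_r1_eq_algebraMap D hρ1 R
  obtain ⟨u, hxu, hu1⟩ := exists_cechClass_of_map_eq_one c0 R R' hs hn x hx
  have hu : (u : R ⊗[W] B01) - 1 ∈ eI m (R ⊗[W] B01) := by
    rw [← algebraMap_left_eq_zero_iff W R R' B01 hs, map_sub, hu1, map_one, sub_self]
  let U : unitsOne (eI m (R ⊗[W] B01)) := ⟨u, hu⟩
  obtain ⟨a', ha'⟩ := P.phi_surjective hn (P.cls m U)
  have hcl : cechClass (c0.baseChange R) ((P.phiUnit hn a' : unitsOne _) : (R ⊗[W] B01)ˣ) =
      cechClass (c0.baseChange R) u :=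
    (cechClass_eq_iff_cls_eq (c0.baseChange R) P hP0 hP1 hn (P.phiUnit hn a') U).2 ha'
  refine ⟨fun i => (a' i : R), ⟨fun i => (a' i).2, ((P.phiUnit hn a' : unitsOne _) :
    (R ⊗[W] B01)ˣ), coe_phiUnit_eq_cechElt D R hn a', by rw [hxu, hcl]⟩, ?_⟩
  rintro a1 ⟨ha1, u1, hu1a, hxu1⟩
  let a1' : Fin g → m := fun i => ⟨a1 i, ha1 i⟩
  have hu1' : ((P.phiUnit hn a1' : unitsOne _) : (R ⊗[W] B01)ˣ) = u1 := by
    ext
    rw [coe_phiUnit_eq_cechElt D R hn a1', hu1a]
  have hcl1 : cechClass (c0.baseChange R) ((P.phiUnit hn a1' : unitsOne _) : (R ⊗[W] B01)ˣ) =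
      cechClass (c0.baseChange R) ((P.phiUnit hn a' : unitsOne _) : (R ⊗[W] B01)ˣ) := by
    rw [hu1', ← hxu1, hcl, ← hxu]
  have h2 : P.phi hn a1' = P.phi hn a' :=
    (cechClass_eq_iff_cls_eq (c0.baseChange R) P hP0 hP1 hn _ _).1 hcl1
  have h3 := P.phi_injective hn h2
  funext i
  exact congrArg (fun f : Fin g → m => (f i : R)) h3

end General

/-! ### Truncations of a local ring -/

section Trunc

variable (O : Type u) [CommRing O] [IsDomain O] [IsDiscreteValuationRing O]

/-- The reduction `O/𝔪^n → O/𝔪`, `n ≠ 0`. -/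
noncomputable def truncToResidue {n : ℕ} (hn : n ≠ 0) :
    RedIface75.Trunc O n →+* IsLocalRing.ResidueField O :=
  Ideal.Quotient.factor (Ideal.pow_le_self hn)

theorem truncToResidue_mk {n : ℕ} (hn : n ≠ 0) (x : O) :
    truncToResidue O hn (Ideal.Quotient.mk _ x) = IsLocalRing.residue O x := rfl

theorem truncToResidue_surjective {n : ℕ} (hn : n ≠ 0) :
    Function.Surjective (truncToResidue O hn) :=
  Ideal.Quotient.factor_surjective _

theorem ker_truncToResidue {n : ℕ} (hn : n ≠ 0) :
    RingHom.ker (truncToResidue O hn) =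
      (IsLocalRing.maximalIdeal O).map (Ideal.Quotient.mk ((IsLocalRing.maximalIdeal O) ^ n)) :=
  Ideal.Quotient.factor_ker _

theorem isNilpotent_ker_truncToResidue {n : ℕ} (hn : n ≠ 0) :
    IsNilpotent (RingHom.ker (truncToResidue O hn)) := by
  refine ⟨n, ?_⟩
  rw [ker_truncToResidue, ← Ideal.map_pow, Ideal.map_quotient_self]
  rfl

theorem subsingleton_trunc_zero : Subsingleton (RedIface75.Trunc O 0) :=
  Ideal.Quotient.subsingleton_iff.mpr (by simp)

end Trunc

section Main

variable {W B0 B1 B01 : Type u} [CommRing W] [CommRing B0] [CommRing B1] [CommRing B01]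
  [Algebra W B0] [Algebra W B1] [Algebra W B01] [Algebra B0 B01] [Algebra B1 B01]
  [IsScalarTower W B0 B01] [IsScalarTower W B1 B01]
  (c0 : TwoChart W B0 B1 B01) {g : ℕ} (D : CechData W B0 B1 B01 g)
  (hρ0 : ∀ x, D.ρ0 x = algebraMap B0 B01 x) (hρ1 : ∀ x, D.ρ1 x = algebraMap B1 B01 x)
  (O : Type u) [CommRing O] [IsDomain O] [IsDiscreteValuationRing O] [Algebra W O]

include hρ0 hρ1 in
/-- **Brick R-d (COORD-EU)**: existence and uniqueness of the truncated coordinates on
`J̃1(O)`. -/
theorem coordExistsUnique : CoordExistsUnique c0 O D.b := by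
  intro y hy n
  rcases Nat.eq_zero_or_pos n with hn0 | hnpos
  · -- the zero ring
    subst hn0
    haveI : Subsingleton (RedIface75.Trunc O 0) := subsingleton_trunc_zero O
    haveI : Subsingleton (RedIface75.Trunc O 0 ⊗[W] B0) := Module.subsingleton (RedIface75.Trunc O 0) _
    haveI : Subsingleton (RedIface75.Trunc O 0 ⊗[W] B1) := Module.subsingleton (RedIface75.Trunc O 0) _
    haveI : Subsingleton (RedIface75.Trunc O 0 ⊗[W] B01) := Module.subsingleton (RedIface75.Trunc O 0) _
    haveI : Subsingleton (PicX c0 (RedIface75.Trunc O 0)) := linePic_subsingleton (c0.baseChange (RedIface75.Trunc O 0))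
    refine ⟨0, ⟨fun i => ?_, 1, Subsingleton.elim _ _, Subsingleton.elim _ _⟩, fun a _ => ?_⟩
    · show (0 : RedIface75.Trunc O 0) ∈ _
      exact Ideal.zero_mem _
    · funext i
      exact Subsingleton.elim _ _
  · have hn : n ≠ 0 := Nat.pos_iff_ne_zero.mp hnpos
    letI : Algebra (RedIface75.Trunc O n) (IsLocalRing.ResidueField O) := (truncToResidue O hn).toAlgebra
    haveI : IsScalarTower W (RedIface75.Trunc O n) (IsLocalRing.ResidueField O) :=
      IsScalarTower.of_algebraMap_eq (fun w => rfl)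
    haveI : IsScalarTower O (RedIface75.Trunc O n) (IsLocalRing.ResidueField O) :=
      IsScalarTower.of_algebraMap_eq (fun w => rfl)
    have hs : Function.Surjective (algebraMap (RedIface75.Trunc O n) (IsLocalRing.ResidueField O)) :=
      truncToResidue_surjective O hn
    have hnil : IsNilpotent (RingHom.ker (algebraMap (RedIface75.Trunc O n) (IsLocalRing.ResidueField O))) :=
      isNilpotent_ker_truncToResidue O hn
    have hker : RingHom.ker (algebraMap (RedIface75.Trunc O n) (IsLocalRing.ResidueField O)) =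
        (IsLocalRing.maximalIdeal O).map (Ideal.Quotient.mk ((IsLocalRing.maximalIdeal O) ^ n)) :=
      ker_truncToResidue O hn
    have hy1 : PicX.map c0 (RedIface75.Trunc O n) (IsLocalRing.ResidueField O)
        (PicX.map c0 O (RedIface75.Trunc O n) y) = 1 := by
      rw [PicX.map_comp]
      exact hy
    have key := existsUnique_coord_of_map_eq_one c0 D hρ0 hρ1 (RedIface75.Trunc O n)
      (IsLocalRing.ResidueField O) hs hnil (PicX.map c0 O (RedIface75.Trunc O n) y) hy1
    rw [hker] at key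
    exact key

end Main

end Fermat.Agent.T1.Red11
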